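import Mathlib
import Fermat.Prelude.Def_AlgebraicCurve_DivisorClassGroup

/-!
# S18 : the place `q = 0` of a subfield of `k((q))`

* `exists_place_of_ordFun` : a normalised discrete "order function" on `F/K` defines a `Place K F`.
* `exists_qPlace` : for an intermediate field `E` of `k((q))/k` containing an element of order `-1`
  there is a place of `E/k` with `ord = HahnSeries.order`.
-/

set_option autoImplicit false

namespace Fermat.Agent.S18

open AlgebraicCurve

theorem exists_place_of_ordFun {K F : Type*} [Field K] [Field F] [Algebra K F] (o : F → ℤ)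
    (hmul : ∀ x y, x ≠ 0 → y ≠ 0 → o (x * y) = o x + o y)
    (hadd : ∀ x y, x ≠ 0 → y ≠ 0 → x + y ≠ 0 → min (o x) (o y) ≤ o (x + y))
    (hK : ∀ a : K, a ≠ 0 → o (algebraMap K F a) = 0)
    (t : F) (ht0 : t ≠ 0) (ht : o t = 1) :
    ∃ v : Place K F, ∀ x, x ≠ 0 → v.ord x = o x := by
  have h1 : o 1 = 0 := by
    have := hmul 1 1 one_ne_zero one_ne_zero
    rw [mul_one] at this
    omega
  have hneg1 : o (-1) = 0 := by
    have := hmul (-1) (-1) (neg_ne_zero.mpr one_ne_zero) (neg_ne_zero.mpr one_ne_zero)
    rw [neg_mul_neg, mul_one, h1] at this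
    omega
  have hneg : ∀ x, x ≠ 0 → o (-x) = o x := by
    intro x hx
    have := hmul (-1) x (neg_ne_zero.mpr one_ne_zero) hx
    rw [neg_one_mul, hneg1, zero_add] at this
    exact this
  have hinv : ∀ x, x ≠ 0 → o x⁻¹ = - o x := by
    intro x hx
    have := hmul x x⁻¹ hx (inv_ne_zero hx)
    rw [mul_inv_cancel₀ hx, h1] at this
    omega
  have hpow : ∀ (n : ℕ), o (t ^ n) = n := by
    intro n
    induction n with
    | zero => simpa using h1
    | succ n ih =>
      rw [pow_succ, hmul _ _ (pow_ne_zero n ht0) ht0, ih, ht]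
      push_cast
      ring
  let O : ValuationSubring F :=
    { carrier := {x | x = 0 ∨ 0 ≤ o x}
      mul_mem' := by
        rintro a b (rfl | ha) hb
        · left; simp
        rcases hb with rfl | hb
        · left; simp
        by_cases ha0 : a = 0
        · left; simp [ha0]
        by_cases hb0 : b = 0
        · left; simp [hb0]
        right
        rw [hmul a b ha0 hb0]
        omega
      one_mem' := Or.inr h1.ge
      add_mem' := by
        rintro a b ha hb
        by_cases ha0 : a = 0
        · simpa [ha0] using hb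
        by_cases hb0 : b = 0
        · simpa [hb0] using ha
        by_cases hab : a + b = 0
        · left; exact hab
        right
        have ha' := ha.resolve_left ha0
        have hb' := hb.resolve_left hb0
        exact le_trans (le_min ha' hb') (hadd a b ha0 hb0 hab)
      zero_mem' := Or.inl rfl
      neg_mem' := by
        rintro a (rfl | ha)
        · left; simp
        by_cases ha0 : a = 0
        · left; simp [ha0]
        right
        rw [hneg a ha0]
        exact ha
      mem_or_inv_mem' := by
        intro x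
        by_cases hx : x = 0
        · left; left; exact hx
        rcases le_total 0 (o x) with h | h
        · left; right; exact h
        · right; right
          rw [hinv x hx]
          omega }
  have hmemO : ∀ x : F, x ∈ O ↔ (x = 0 ∨ 0 ≤ o x) := fun x => Iff.rfl
  have hunit : ∀ (x : F) (hx : x ∈ O), x ≠ 0 → o x = 0 → IsUnit (⟨x, hx⟩ : O) := by
    intro x hx hx0 hox
    have hxi : x⁻¹ ∈ O := (hmemO _).mpr (Or.inr (by rw [hinv x hx0]; omega))
    exact ⟨⟨⟨x, hx⟩, ⟨x⁻¹, hxi⟩, Subtype.ext (mul_inv_cancel₀ hx0),
      Subtype.ext (inv_mul_cancel₀ hx0)⟩, rfl⟩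
  have hunit' : ∀ (x : O), IsUnit x → o (x : F) = 0 := by
    intro x hx
    obtain ⟨y, hy⟩ := isUnit_iff_exists_inv.mp hx
    have hxy : (x : F) * (y : F) = 1 := by
      have := congrArg Subtype.val hy
      simpa using this
    have hx0 : (x : F) ≠ 0 := left_ne_zero_of_mul_eq_one hxy
    have hy0 : (y : F) ≠ 0 := right_ne_zero_of_mul_eq_one hxy
    have h3 := hmul _ _ hx0 hy0
    rw [hxy, h1] at h3
    have h4 := ((hmemO _).mp x.2).resolve_left hx0
    have h5 := ((hmemO _).mp y.2).resolve_left hy0
    omega
  have htO : t ∈ O := (hmemO t).mpr (Or.inr (by omega))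
  have hirr : Irreducible (⟨t, htO⟩ : O) := by
    constructor
    · intro h
      have := hunit' _ h
      simp only at this
      omega
    · rintro ⟨a, ha⟩ ⟨b, hb⟩ hab
      have hab' : t = a * b := by simpa [Subtype.ext_iff] using hab
      have ha0 : a ≠ 0 := by
        rintro rfl
        exact ht0 (by simpa using hab')
      have hb0 : b ≠ 0 := by
        rintro rfl
        exact ht0 (by simpa using hab')
      have hsum := hmul a b ha0 hb0
      rw [← hab', ht] at hsum
      have ha' := ((hmemO _).mp ha).resolve_left ha0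
      have hb' := ((hmemO _).mp hb).resolve_left hb0
      rcases eq_or_lt_of_le ha' with h | h
      · exact Or.inl (hunit a ha ha0 h.symm)
      · exact Or.inr (hunit b hb hb0 (by omega))
  have hPID : IsPrincipalIdealRing O := by
    refine (IsDiscreteValuationRing.ofHasUnitMulPowIrreducibleFactorization
      ⟨⟨t, htO⟩, hirr, ?_⟩).toIsPrincipalIdealRing
    rintro ⟨f, hf⟩ hx
    have hf0 : f ≠ 0 := by simpa [Subtype.ext_iff] using hx
    have hnn := ((hmemO _).mp hf).resolve_left hf0
    obtain ⟨n, hn⟩ := Int.eq_ofNat_of_zero_le hnn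
    refine ⟨n, ?_⟩
    have hd0 : f / t ^ n ≠ 0 := div_ne_zero hf0 (pow_ne_zero n ht0)
    have hod : o (f / t ^ n) = 0 := by
      rw [div_eq_mul_inv, hmul _ _ hf0 (inv_ne_zero (pow_ne_zero n ht0)),
        hinv _ (pow_ne_zero n ht0), hpow, hn]
      ring
    have hdO : f / t ^ n ∈ O := (hmemO _).mpr (Or.inr hod.ge)
    have hu := hunit _ hdO hd0 hod
    refine ⟨hu.unit, Subtype.ext ?_⟩
    have hcoe : ((hu.unit : O) : F) = f / t ^ n := by rw [IsUnit.unit_spec]
    push_cast
    rw [hcoe, mul_comm, div_mul_cancel₀]
    exact pow_ne_zero n ht0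
  let v : Place K F :=
    { toValuationSubring := O
      algebraMap_mem' := by
        intro a
        by_cases ha : a = 0
        · left; simp [ha]
        · right; exact (hK a ha).ge
      ne_top' := by
        intro h
        have : t⁻¹ ∈ O := h ▸ ValuationSubring.mem_top _
        have := ((hmemO _).mp this).resolve_left (inv_ne_zero ht0)
        rw [hinv t ht0, ht] at this
        omega
      isPrincipalIdealRing' := hPID }
  refine ⟨v, fun x hx => ?_⟩
  have hzpow : ∀ n : ℤ, o (t ^ n) = n := by
    intro n
    rcases Int.eq_nat_or_neg n with ⟨k, rfl | rfl⟩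
    · rw [zpow_natCast, hpow]
    · rw [zpow_neg, zpow_natCast, hinv _ (pow_ne_zero k ht0), hpow]
  have hd0 : x / t ^ (o x) ≠ 0 := div_ne_zero hx (zpow_ne_zero _ ht0)
  have hod : o (x / t ^ (o x)) = 0 := by
    rw [div_eq_mul_inv, hmul _ _ hx (inv_ne_zero (zpow_ne_zero _ ht0)),
      hinv _ (zpow_ne_zero _ ht0), hzpow]
    ring
  have hdO : x / t ^ (o x) ∈ O := (hmemO _).mpr (Or.inr hod.ge)
  have hu := hunit _ hdO hd0 hod
  have key := v.ord_unit_smul_zpow (hu.unit : v.toValuationSubringˣ) (π := ⟨t, htO⟩) hirr (o x)
  have hcoe : (((hu.unit : v.toValuationSubringˣ) : v.toValuationSubring) : F) = x / t ^ (o x) := by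
    rw [IsUnit.unit_spec]
  rw [hcoe] at key
  have hxx : x / t ^ (o x) * t ^ (o x) = x := div_mul_cancel₀ _ (zpow_ne_zero _ ht0)
  simp only at key
  rw [hxx] at key
  exact key

/-- The place `q = 0` on an intermediate field of `k((q))` containing an element of order `-1`. -/
theorem exists_qPlace {k : Type*} [Field k] (E : IntermediateField k (LaurentSeries k))
    (J : LaurentSeries k) (hJ : J ∈ E) (hJo : J.order = -1) :
    ∃ v : Place k E, ∀ x : E, x ≠ 0 → v.ord x = (x : LaurentSeries k).order := by
  have hJ0 : J ≠ 0 := by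
    rintro rfl
    simp at hJo
  refine exists_place_of_ordFun (K := k) (F := E) (fun x => (x : LaurentSeries k).order)
    ?_ ?_ ?_ (⟨J, hJ⟩ : E)⁻¹ ?_ ?_
  · intro x y hx hy
    have hx' : (x : LaurentSeries k) ≠ 0 := by simpa using hx
    have hy' : (y : LaurentSeries k) ≠ 0 := by simpa using hy
    simpa using HahnSeries.order_mul hx' hy'
  · intro x y _ _ hxy
    have hxy' : (x : LaurentSeries k) + (y : LaurentSeries k) ≠ 0 := by
      intro h
      exact hxy (Subtype.ext (by simpa using h))
    simpa using HahnSeries.min_order_le_order_add hxy'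
  · intro a ha
    show (algebraMap k (LaurentSeries k) a).order = 0
    have : algebraMap k (LaurentSeries k) a = HahnSeries.single 0 a := by
      have h1 : algebraMap k (PowerSeries k) a = PowerSeries.C a := by simp
      rw [HahnSeries.algebraMap_apply', h1, HahnSeries.ofPowerSeries_C]
      rfl
    rw [this, HahnSeries.order_single ha]
  · exact inv_ne_zero (fun h => hJ0 (congrArg Subtype.val h))
  · show ((J : LaurentSeries k)⁻¹).order = 1
    have h := HahnSeries.order_mul hJ0 (inv_ne_zero hJ0)
    rw [mul_inv_cancel₀ hJ0, HahnSeries.order_one, hJo] at h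
    omega

end Fermat.Agent.S18
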