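import Mathlib
import Fermat.Agent.S28.Defs

/-!
# S18 : `m`-th roots and the subfield `K((q^s))` of `K((q))`

`mem_range_qExpand_of_pow` : if `h ^ m ∈ K((q^s))` and `s ∣ ord_q h` then `h ∈ K((q^s))`
(`K` algebraically closed of characteristic zero).
-/

set_option autoImplicit false

namespace Fermat.Agent.S18

open ModularCurve Fermat.Agent.S28

theorem mem_range_qExpand_iff {K : Type*} [CommRing K] (s : ℕ) [NeZero s] (x : LaurentSeries K) :
    x ∈ (qExpand K s).range ↔ ∀ n : ℤ, ¬ (s : ℤ) ∣ n → x.coeff n = 0 := by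
  constructor
  · rintro ⟨y, rfl⟩ n hn
    exact qExpand_coeff_of_not_dvd s y hn
  · intro h
    have hs : (0 : ℤ) < s := by exact_mod_cast Nat.pos_of_ne_zero (NeZero.ne s)
    have hbdd : BddBelow (Function.support fun k : ℤ => x.coeff ((s : ℤ) * k)) := by
      refine ⟨min x.order 0, fun k hk' => ?_⟩
      by_contra hk
      push Not at hk
      apply hk'
      show x.coeff ((s : ℤ) * k) = 0
      have hk0 : k < 0 := lt_of_lt_of_le hk (min_le_right _ _)
      have hkb : k < x.order := lt_of_lt_of_le hk (min_le_left _ _)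
      have : (s : ℤ) * k ≤ k := by nlinarith
      exact HahnSeries.coeff_eq_zero_of_lt_order (by omega)
    refine ⟨HahnSeries.ofSuppBddBelow (fun k : ℤ => x.coeff ((s : ℤ) * k)) hbdd, ?_⟩
    ext n
    by_cases hn : (s : ℤ) ∣ n
    · obtain ⟨k, rfl⟩ := hn
      rw [qExpand_coeff_mul]
      rfl
    · rw [qExpand_coeff_of_not_dvd s _ hn, h n hn]

theorem twist_eq_self_of_mem_range {K : Type*} [CommRing K] (s : ℕ) [NeZero s] (ζ : Kˣ)
    (hζ : ζ ^ s = 1) {x : LaurentSeries K} (hx : x ∈ (qExpand K s).range) : twist ζ x = x := by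
  ext n
  rw [twist_coeff]
  by_cases hn : (s : ℤ) ∣ n
  · obtain ⟨k, rfl⟩ := hn
    rw [zpow_mul, zpow_natCast, hζ, one_zpow, Units.val_one, one_mul]
  · rw [(mem_range_qExpand_iff s x).mp hx n hn, mul_zero]

theorem mem_range_of_twist_eq_self {K : Type*} [Field K] (s : ℕ) [NeZero s] (ζ : Kˣ)
    (hζ : IsPrimitiveRoot ζ s) {x : LaurentSeries K} (hx : twist ζ x = x) :
    x ∈ (qExpand K s).range := by
  rw [mem_range_qExpand_iff]
  intro n hn
  have h := congrArg (fun y => HahnSeries.coeff y n) hx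
  simp only [twist_coeff] at h
  by_contra hne
  have h1 : ((ζ ^ n : Kˣ) : K) = 1 := by
    have : ((ζ ^ n : Kˣ) : K) * x.coeff n = 1 * x.coeff n := by rw [h, one_mul]
    exact mul_right_cancel₀ hne this
  have h2 : ζ ^ n = 1 := Units.ext (by simpa using h1)
  exact hn ((hζ.zpow_eq_one_iff_dvd n).mp h2)

theorem mem_range_algebraMap_of_isIntegral {K F : Type*} [Field K] [IsAlgClosed K] [Field F]
    [Algebra K F] {x : F} (hx : IsIntegral K x) : x ∈ (algebraMap K F).range :=
  minpoly.mem_range_of_degree_eq_one K x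
    (IsAlgClosed.degree_eq_one_of_irreducible K (minpoly.irreducible hx))

theorem mem_range_qExpand_of_pow {K : Type*} [Field K] [IsAlgClosed K] [CharZero K]
    (s m : ℕ) [NeZero s] (hm : m ≠ 0) (h : LaurentSeries K) (hh : h ≠ 0)
    (hpow : h ^ m ∈ (qExpand K s).range) (hord : (s : ℤ) ∣ h.order) :
    h ∈ (qExpand K s).range := by
  obtain ⟨ζ₀, hζ₀⟩ := HasEnoughRootsOfUnity.exists_primitiveRoot K s
  have hζ₀u : IsUnit ζ₀ := hζ₀.isUnit (NeZero.ne s)
  obtain ⟨ζ, rfl⟩ := hζ₀u
  have hζ : IsPrimitiveRoot ζ s := IsPrimitiveRoot.coe_units_iff.mp hζ₀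
  apply mem_range_of_twist_eq_self s ζ hζ
  set ξ := twist ζ h / h with hξ
  have hξm : ξ ^ m = 1 := by
    rw [hξ, div_pow, ← map_pow, twist_eq_self_of_mem_range s ζ hζ.pow_eq_one hpow,
      div_self (pow_ne_zero m hh)]
  have hint : IsIntegral K ξ := by
    refine ⟨Polynomial.X ^ m - 1, Polynomial.monic_X_pow_sub_C (1 : K) hm, ?_⟩
    simp [hξm]
  obtain ⟨c, hc⟩ := mem_range_algebraMap_of_isIntegral hint
  have htw : twist ζ h = algebraMap K (LaurentSeries K) c * h := by
    rw [hc, hξ, div_mul_cancel₀ _ hh]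
  have hcoef := congrArg (fun y => HahnSeries.coeff y h.order) htw
  simp only [twist_coeff] at hcoef
  have hC : algebraMap K (LaurentSeries K) c = HahnSeries.C c := by
    rw [algebraMap_laurentSeries_eq_single]
    rfl
  rw [hC, HahnSeries.C_mul_eq_smul, HahnSeries.coeff_smul, smul_eq_mul] at hcoef
  obtain ⟨k, hk⟩ := hord
  have hz : ((ζ ^ h.order : Kˣ) : K) = 1 := by
    rw [hk, zpow_mul, zpow_natCast, hζ.pow_eq_one, one_zpow, Units.val_one]
  rw [hz] at hcoef
  have hlc : h.coeff h.order ≠ 0 := fun h0 => hh (HahnSeries.coeff_order_eq_zero.mp h0)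
  have hc1 : c = 1 := (mul_right_cancel₀ hlc hcoef).symm
  rw [htw, hc1, map_one, one_mul]

end Fermat.Agent.S18
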