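import Fermat.Agent.S18.Fricke
import Fermat.Agent.S18.Twist
import Fermat.Prelude.Def_ModularCurve_HeckeOperator

/-!
# S18 : `F_{Ns} ∩ ℚ̄((q^s)) = β(F_N)`
-/

set_option autoImplicit false

open ModularCurve IntermediateField
open scoped MatrixGroups

noncomputable section

namespace Fermat.Agent.S18

open Fermat.Agent.S24

open Polynomial in
theorem exists_monic_aux' {K E F : Type*} [Field K] [Field E] [Field F] [Algebra K E] [Algebra E F]
    [Algebra K F] [IsScalarTower K E F] (g : E) (x : F) (n D : ℕ)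
    (c' : ℕ × ℕ → K) (hc'1 : c' (n, 0) = 1) (hc'0 : ∀ a, a ≠ 0 → c' (n, a) = 0)
    (hc' : ∑ i ∈ Finset.range (n + 1) ×ˢ Finset.range (D + 1),
      algebraMap K F (c' i) * (algebraMap E F g ^ i.2 * x ^ i.1) = 0) :
    ∃ P : Polynomial E, P.Monic ∧ P.natDegree = n ∧ Polynomial.aeval x P = 0 := by
  let e : ℕ → E := fun k => ∑ a ∈ Finset.range (D + 1), algebraMap K E (c' (k, a)) * g ^ a
  let P : Polynomial E := ∑ k ∈ Finset.range (n + 1), C (e k) * X ^ k
  have hen : e n = 1 := by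
    show ∑ a ∈ Finset.range (D + 1), algebraMap K E (c' (n, a)) * g ^ a = 1
    rw [Finset.sum_eq_single 0]
    · simp [hc'1]
    · intro a _ ha
      rw [hc'0 a ha, map_zero, zero_mul]
    · simp
  have hPdeg : P.natDegree ≤ n := by
    apply natDegree_sum_le_of_forall_le
    intro k hk
    exact (natDegree_C_mul_X_pow_le _ _).trans (Nat.lt_succ_iff.mp (Finset.mem_range.mp hk))
  have hPn : P.coeff n = 1 := by
    show (∑ k ∈ Finset.range (n + 1), C (e k) * X ^ k).coeff n = 1
    rw [finsetSum_coeff]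
    simp only [coeff_C_mul_X_pow]
    rw [Finset.sum_eq_single n]
    · simp [hen]
    · intro k _ hk
      rw [if_neg (Ne.symm hk)]
    · simp
  refine ⟨P, monic_of_natDegree_le_of_coeff_eq_one n hPdeg hPn,
    natDegree_eq_of_le_of_coeff_ne_zero hPdeg (by rw [hPn]; exact one_ne_zero), ?_⟩
  show aeval x (∑ k ∈ Finset.range (n + 1), C (e k) * X ^ k) = 0
  rw [map_sum, ← hc', Finset.sum_product]
  refine Finset.sum_congr rfl fun k _ => ?_
  rw [map_mul, map_pow, aeval_X, aeval_C]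
  show algebraMap E F
    (∑ a ∈ Finset.range (D + 1), algebraMap K E (c' (k, a)) * g ^ a) * x ^ k = _
  rw [map_sum, Finset.sum_mul]
  refine Finset.sum_congr rfl fun a _ => ?_
  rw [map_mul, map_pow, ← IsScalarTower.algebraMap_apply]
  ring

theorem adjoin_simple_eq_top_of_embeddings {k F L : Type*} [Field k] [Field F] [Field L]
    [Algebra k F] [Algebra k L] (J y : F) [FiniteDimensional k⟮J⟯ F] {I : Type*} [Finite I]
    (φ : I → F →ₐ[k] L) (hJ : ∀ i j, φ i J = φ j J) (hy : Function.Injective (fun i => φ i y))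
    (hcard : Module.finrank k⟮J⟯ F ≤ Nat.card I) : (k⟮J⟯)⟮y⟯ = ⊤ := by
  rcases isEmpty_or_nonempty I with hI | ⟨⟨i₀⟩⟩
  · exfalso
    have : Module.finrank k⟮J⟯ F = 0 := by simpa using hcard
    exact (Module.finrank_pos (R := k⟮J⟯) (M := F)).ne' this
  let _ : Algebra k⟮J⟯ L := ((φ i₀).comp (k⟮J⟯).val).toRingHom.toAlgebra
  have hcomm : ∀ i (b : k⟮J⟯), φ i (algebraMap k⟮J⟯ F b) = algebraMap k⟮J⟯ L b := by
    intro i b
    have : (φ i).comp (k⟮J⟯).val = (φ i₀).comp (k⟮J⟯).val := by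
      apply adjoin_algHom_ext
      intro x hx
      rw [Set.mem_singleton_iff] at hx
      subst hx
      exact hJ i i₀
    exact DFunLike.congr_fun this b
  let ψ : I → F →ₐ[k⟮J⟯] L := fun i => { (φ i).toRingHom with commutes' := hcomm i }
  let ψT : I → (k⟮J⟯)⟮y⟯ →ₐ[k⟮J⟯] L := fun i => (ψ i).comp ((k⟮J⟯)⟮y⟯).val
  have hψT : Function.Injective ψT := by
    intro i j hij
    apply hy
    exact DFunLike.congr_fun hij (⟨y, mem_adjoin_simple_self k⟮J⟯ y⟩ : (k⟮J⟯)⟮y⟯)
  have h1 : Nat.card I ≤ Module.finrank k⟮J⟯ (k⟮J⟯)⟮y⟯ :=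
    (Nat.card_le_card_of_injective ψT hψT).trans (card_algHom_le_finrank k⟮J⟯ (k⟮J⟯)⟮y⟯ L)
  exact IntermediateField.eq_of_le_of_finrank_le le_top (by
    rw [IntermediateField.finrank_top']; exact hcard.trans h1)

theorem phi_Jd_injective (M : ℕ) [NeZero M] :
    Function.Injective (fun i : Cos M => phi M i (Jd M M dvd_rfl)) := by
  intro i j h2
  simp only at h2
  induction i using QuotientGroup.induction_on with
  | H γ =>
  induction j using QuotientGroup.induction_on with
  | H γ' =>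
  rw [phi_mk, phi_mk, Psi_Jd, smul_algebraMap_LL, smul_algebraMap_LL] at h2
  have h3 := IsFractionRing.injective (MerMod M) (LL M) h2
  rw [QuotientGroup.eq]
  apply mem_Gamma0_of_jD_smul
  intro τ
  have h4 := congrFun (congrArg Subtype.val h3) (γ' • τ)
  simp only [smul_MerMod_apply, inv_smul_smul] at h4
  rw [mul_smul]
  exact h4

/-- **function field generation**: `F_M = ℚ̄(j)(j_M)`. -/
theorem adjoin_JJ_Jd_eq_top (M : ℕ) [NeZero M] :
    (Kb⟮JJ M⟯)⟮Jd M M dvd_rfl⟯ = ⊤ := by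
  have hfd := finiteDimensional_FN M
  exact adjoin_simple_eq_top_of_embeddings (JJ M) (Jd M M dvd_rfl) (phi M)
    (fun i j => by rw [phi_JJ, phi_JJ]) (phi_Jd_injective M) (finrank_FN M).le

theorem adjoin_eq_top_of_tower {k E F : Type*} [Field k] [Field E] [Field F] [Algebra k E]
    [Algebra E F] [Algebra k F] [IsScalarTower k E F] (J y : F) (htop : (k⟮J⟯)⟮y⟯ = ⊤)
    (hy : y ∈ (algebraMap E F).range) : E⟮J⟯ = ⊤ := by
  have hK₁ : k⟮J⟯ ≤ (E⟮J⟯).restrictScalars k := by
    rw [adjoin_simple_le_iff]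
    exact mem_adjoin_simple_self E J
  let T₁ : IntermediateField k⟮J⟯ F :=
    (E⟮J⟯).toSubfield.toIntermediateField (fun b => hK₁ b.2)
  have hyT : y ∈ T₁ := by
    obtain ⟨e, rfl⟩ := hy
    exact (E⟮J⟯).algebraMap_mem e
  have h1 : (k⟮J⟯)⟮y⟯ ≤ T₁ := by
    rw [adjoin_simple_le_iff]
    exact hyT
  rw [htop] at h1
  rw [eq_top_iff]
  intro x _
  exact h1 (IntermediateField.mem_top (x := x))

open Polynomial in
theorem mem_range_of_mem_subfield {E F Ω : Type*} [Field E] [Field F] [Field Ω] [Algebra E F]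
    (ι : F →+* Ω) (R : Subfield Ω) (h1 : ∀ e : E, ι (algebraMap E F e) ∈ R) (J : F)
    (htop : E⟮J⟯ = ⊤) (P : E[X]) (hP : P.Monic) (hPJ : aeval J P = 0) (s : ℕ)
    (τ : Fin s → Ω →+* Ω) (hτ : ∀ i, ∀ r ∈ R, τ i r = r)
    (hinj : Function.Injective (fun i => τ i (ι J))) (hlt : P.natDegree < 2 * s)
    (x : F) (hx : ι x ∈ R) : x ∈ (algebraMap E F).range := by
  have hint : IsIntegral E J := ⟨P, hP, hPJ⟩
  have hfd : FiniteDimensional E F := by
    have := adjoin.finiteDimensional hint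
    rw [htop] at this
    exact (IntermediateField.topEquiv (F := E) (E := F)).toLinearEquiv.finiteDimensional
  have hrank : Module.finrank E F ≤ P.natDegree := by
    rw [← IntermediateField.finrank_top', ← htop, adjoin.finrank hint]
    exact natDegree_le_of_dvd (minpoly.dvd E J hPJ) hP.ne_zero
  let F'' : IntermediateField E F := (R.comap ι).toIntermediateField h1
  have hxF : x ∈ F'' := hx
  let _ : Algebra F'' Ω := (ι.comp (algebraMap F'' F)).toAlgebra
  let ψ : Fin s → F →ₐ[F''] Ω := fun i =>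
    { (τ i).comp ι with
      commutes' := fun b => hτ i _ b.2 }
  have hψ : Function.Injective ψ := by
    intro i j hij
    apply hinj
    exact DFunLike.congr_fun hij J
  have hs : s ≤ Module.finrank F'' F := by
    have := (Nat.card_le_card_of_injective ψ hψ).trans (card_algHom_le_finrank F'' F Ω)
    simpa using this
  have hmul := Module.finrank_mul_finrank E F'' F
  have hpos : 0 < Module.finrank E F'' := Module.finrank_pos
  have hone : Module.finrank E F'' = 1 := by
    by_contra hne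
    have h2 : 2 ≤ Module.finrank E F'' := by omega
    have : 2 * s ≤ Module.finrank E F'' * Module.finrank F'' F := Nat.mul_le_mul h2 hs
    omega
  rw [IntermediateField.finrank_eq_one_iff] at hone
  rw [hone] at hxF
  exact IntermediateField.mem_bot.mp hxF

theorem qExpand_JdL (s d : ℕ) [NeZero s] [NeZero d] [NeZero (d * s)] :
    qExpand Kb s (JdL d) = JdL (d * s) := by
  have : NeZero (s * d) := ⟨Nat.mul_ne_zero (NeZero.ne s) (NeZero.ne d)⟩
  show qExpand Kb s (coeffMap (algebraMap ℚ Kb) (qExpand ℚ d jq)) =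
    coeffMap (algebraMap ℚ Kb) (qExpand ℚ (d * s) jq)
  rw [← coeffMap_qExpand, qExpand_qExpand, qExpand_congr (mul_comm s d)]

theorem coeff_JdL_one_neg_one : (JdL 1).coeff (-1) = 1 := coeff_JJ_neg_one 1

/-- `F_{Ns} = β(F_N)(j)`, and `j` is a root of a monic polynomial of degree `[SL₂(ℤ) : Γ₀(s)]`
over `β(F_N)`. -/
theorem beta_generation (N s : ℕ) [NeZero N] [NeZero s] :
    letI : Algebra (FN N) (FN (N * s)) := (heckeBetaBar Kb N s).toRingHom.toAlgebra
    (FN N)⟮JJ (N * s)⟯ = ⊤ ∧ ∃ P : Polynomial (FN N), P.Monic ∧ P.natDegree = Nat.card (Cos s) ∧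
      Polynomial.aeval (JJ (N * s)) P = 0 := by
  have : NeZero (N * s) := ⟨Nat.mul_ne_zero (NeZero.ne N) (NeZero.ne s)⟩
  have : NeZero (1 * s) := ⟨Nat.mul_ne_zero one_ne_zero (NeZero.ne s)⟩
  let _ : Algebra (FN N) (FN (N * s)) := (heckeBetaBar Kb N s).toRingHom.toAlgebra
  have : IsScalarTower Kb (FN N) (FN (N * s)) :=
    IsScalarTower.of_algebraMap_eq (fun a => ((heckeBetaBar Kb N s).commutes a).symm)
  have hβ : ∀ e : FN N, ((algebraMap (FN N) (FN (N * s)) e : FN (N * s)) : LaurentSeries Kb)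
      = qExpand Kb s (e : LaurentSeries Kb) := fun e => rfl
  -- generation
  have hy : Jd (N * s) (N * s) dvd_rfl ∈ (algebraMap (FN N) (FN (N * s))).range := by
    refine ⟨Jd N N dvd_rfl, Subtype.ext ?_⟩
    rw [hβ]
    exact qExpand_JdL s N
  have htop := adjoin_eq_top_of_tower (k := Kb) (E := FN N) (JJ (N * s)) _
    (adjoin_JJ_Jd_eq_top (N * s)) hy
  refine ⟨htop, ?_⟩
  -- the monic polynomial
  obtain ⟨D, c', h1, h0, hrel⟩ := exists_swapped_relation s
  exact exists_monic_aux' (K := Kb) (E := FN N) (F := FN (N * s)) (JJ N)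
    (JJ (N * s)) (Nat.card (Cos s)) D c' h1 h0 (by
      apply Subtype.ext
      rw [AddSubmonoidClass.coe_finsetSum]
      refine Eq.trans (Finset.sum_congr rfl fun i _ => ?_) hrel
      have h2 : ((algebraMap (FN N) (FN (N * s)) (JJ N) : FN (N * s)) : LaurentSeries Kb)
          = JdL s := by
        rw [hβ]
        have h3 : qExpand Kb s (JdL 1) = JdL (1 * s) := qExpand_JdL s 1
        refine h3.trans ?_
        show coeffEmb Kb (qExpand ℚ (1 * s) jq) = coeffEmb Kb (qExpand ℚ s jq)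
        rw [qExpand_congr (one_mul s)]
      show algebraMap Kb (LaurentSeries Kb) (c' i) *
        (((algebraMap (FN N) (FN (N * s)) (JJ N) : FN (N * s)) : LaurentSeries Kb) ^ i.2
          * JdL 1 ^ i.1) = _
      rw [h2])

theorem finiteDimensional_of_adjoin_eq_top {E F : Type*} [Field E] [Field F] [Algebra E F] (J : F)
    (htop : E⟮J⟯ = ⊤) (hint : IsIntegral E J) : FiniteDimensional E F := by
  have := adjoin.finiteDimensional hint
  rw [htop] at this
  exact (IntermediateField.topEquiv (F := E) (E := F)).toLinearEquiv.finiteDimensional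

/-- the prelude's `HeckeBetaBarIntegral`. -/
theorem heckeBetaBarIntegral (N s : ℕ) [NeZero N] [NeZero s] : HeckeBetaBarIntegral Kb N s := by
  let _ : Algebra (FN N) (FN (N * s)) := (heckeBetaBar Kb N s).toRingHom.toAlgebra
  obtain ⟨htop, P, hP, -, hPJ⟩ := beta_generation N s
  have := finiteDimensional_of_adjoin_eq_top (E := FN N) (JJ (N * s)) htop ⟨P, hP, hPJ⟩
  intro x
  exact Algebra.IsIntegral.isIntegral (R := FN N) x

/-- `F_{Ns} ∩ ℚ̄((q^s)) = β(F_N)` when `[SL₂(ℤ) : Γ₀(s)] < 2 s` (e.g. `s` a prime power). -/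
theorem exists_beta_eq (N s : ℕ) [NeZero N] [NeZero s] (hs : Nat.card (Cos s) < 2 * s)
    (x : FN (N * s)) (hx : (x : LaurentSeries Kb) ∈ (qExpand Kb s).range) :
    ∃ w : FN N, heckeBetaBar Kb N s w = x := by
  let _ : Algebra (FN N) (FN (N * s)) := (heckeBetaBar Kb N s).toRingHom.toAlgebra
  have hβ : ∀ e : FN N, ((algebraMap (FN N) (FN (N * s)) e : FN (N * s)) : LaurentSeries Kb)
      = qExpand Kb s (e : LaurentSeries Kb) := fun e => rfl
  obtain ⟨htop, P, hP, hPn, hPJ⟩ := beta_generation N s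
  -- the twists
  obtain ⟨ζ₀, hζ₀⟩ := HasEnoughRootsOfUnity.exists_primitiveRoot Kb s
  have hζ₀u : IsUnit ζ₀ := hζ₀.isUnit (NeZero.ne s)
  obtain ⟨ζ, rfl⟩ := hζ₀u
  have hζ : IsPrimitiveRoot ζ s := IsPrimitiveRoot.coe_units_iff.mp hζ₀
  have key := mem_range_of_mem_subfield (E := FN N) (F := FN (N * s)) (Ω := LaurentSeries Kb)
    (algebraMap (FN (N * s)) (LaurentSeries Kb)) (qExpand Kb s).fieldRange
    (fun e => ⟨_, (hβ e).symm⟩) (JJ (N * s)) htop P hP hPJ s
    (fun i => S28.twist (ζ ^ (i : ℕ)))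
    (fun i r hr => twist_eq_self_of_mem_range s _ (by rw [← pow_mul, mul_comm, pow_mul,
      hζ.pow_eq_one, one_pow]) hr)
    (by
      intro i j hij
      have h3 : ((S28.twist (ζ ^ (i : ℕ)))
          ((algebraMap (FN (N * s)) (LaurentSeries Kb)) (JJ (N * s)))).coeff (-1) =
          ((S28.twist (ζ ^ (j : ℕ)))
          ((algebraMap (FN (N * s)) (LaurentSeries Kb)) (JJ (N * s)))).coeff (-1) :=
        congrArg (fun z : LaurentSeries Kb => z.coeff (-1)) hij
      have h4 : (algebraMap (FN (N * s)) (LaurentSeries Kb) (JJ (N * s))).coeff (-1) = 1 :=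
        coeff_JJ_neg_one (N * s)
      simp only [S28.twist_coeff, h4, mul_one] at h3
      have h5 : (ζ ^ (i : ℕ)) ^ (-1 : ℤ) = (ζ ^ (j : ℕ)) ^ (-1 : ℤ) := Units.ext h3
      have h6 : ζ ^ (i : ℕ) = ζ ^ (j : ℕ) := by simpa using h5
      exact Fin.ext (hζ.pow_inj i.2 j.2 h6))
    (by rw [hPn]; exact hs) x hx
  obtain ⟨w, hw⟩ := key
  exact ⟨w, hw⟩

end Fermat.Agent.S18
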