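import Fermat.Agent.S18.Degree
import Fermat.Agent.S18.QPlace
import Fermat.Agent.GAL.Defs
import Fermat.Agent.Lib.Gamma0Cosets
import Fermat.Prelude.Thm_ModularCurve_coeffMap_qExpand

/-!
# S18 : change of level for the key lemma (Gauss form)

`KeyGauss A M m` : the key lemma "injectivity of reduction on `m`-torsion" at level `M`, for
`W = P / Q` with `P, Q ∈ A((q)) ∩ F_M`, `red P = red Q ≠ 0`.

`keyGauss_of_mul` : `KeyGauss A (N * s) m → KeyGauss A N m` for `s` with `ψ(s) < 2 s`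
(all prime powers, in particular `s = 4, 9`).
-/

set_option autoImplicit false

open ModularCurve AlgebraicCurve IntermediateField

noncomputable section

namespace Fermat.Agent.S18

open Fermat.Agent.S24 Fermat.Agent.GAL

/-- The key lemma at level `M`, exponent `m`, in "Gauss form". -/
def KeyGauss (A : ValuationSubring Qb) (M m : ℕ) : Prop :=
  ∀ (P Q : LaurentSeries A) (hP : inclA A P ∈ FL Qb M) (hQ : inclA A Q ∈ FL Qb M),
    redA A P = redA A Q → redA A Q ≠ 0 →
    (∀ v : Place Qb (FL Qb M),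
      (m : ℤ) ∣ v.ord ((⟨inclA A P, hP⟩ : FL Qb M) / ⟨inclA A Q, hQ⟩)) →
    ∃ y ∈ FL Qb M, y ^ m * inclA A Q = inclA A P

theorem inclA_injective (A : ValuationSubring Qb) : Function.Injective (inclA A) := by
  intro x y h
  ext n
  have h1 : ((x.coeff n : A) : Qb) = ((y.coeff n : A) : Qb) :=
    congrArg (fun z : LaurentSeries Qb => z.coeff n) h
  exact_mod_cast h1

theorem order_qExpand {K : Type*} [CommRing K] (s : ℕ) [NeZero s] {x : LaurentSeries K}
    (hx : x ≠ 0) : (qExpand K s x).order = (s : ℤ) * x.order := by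
  have hs : (0 : ℤ) < s := by exact_mod_cast Nat.pos_of_ne_zero (NeZero.ne s)
  have hx' : qExpand K s x ≠ 0 := fun h => hx (qExpand_injective s (by rw [h, map_zero]))
  apply le_antisymm
  · apply HahnSeries.order_le_of_coeff_ne_zero
    rw [qExpand_coeff_mul]
    exact fun h0 => hx (HahnSeries.coeff_order_eq_zero.mp h0)
  · have h1 : (qExpand K s x).coeff (qExpand K s x).order ≠ 0 :=
      fun h0 => hx' (HahnSeries.coeff_order_eq_zero.mp h0)
    by_cases hd : (s : ℤ) ∣ (qExpand K s x).order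
    · obtain ⟨k, hk⟩ := hd
      rw [hk, qExpand_coeff_mul] at h1
      rw [hk]
      exact mul_le_mul_of_nonneg_left (HahnSeries.order_le_of_coeff_ne_zero h1) hs.le
    · exact absurd (qExpand_coeff_of_not_dvd s x hd) h1

theorem order_JdL_one : (JdL 1).order = -1 := by
  have h1 : (JdL 1).coeff (-1) = 1 := coeff_JdL_one_neg_one
  have h0 : JdL 1 ≠ 0 := by
    intro h
    rw [h] at h1
    simp at h1
  apply le_antisymm
  · exact HahnSeries.order_le_of_coeff_ne_zero (by rw [h1]; exact one_ne_zero)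
  · rw [HahnSeries.le_order_iff_forall h0]
    intro j hj
    show (coeffEmb Kb (qExpand ℚ 1 jq)).coeff j = 0
    rw [qExpand_one_apply, coeffEmb_coeff, coeff_jq_of_lt hj, map_zero]

/-- the place `q = 0` of `F_N`. -/
theorem exists_placeInfty (N : ℕ) :
    ∃ v : Place Qb (FL Qb N), ∀ x : FL Qb N, x ≠ 0 → v.ord x = (x : LaurentSeries Qb).order :=
  exists_qPlace (FL Qb N) (JdL 1) (JJ N).2 order_JdL_one

/-- divisibility of all orders is preserved by `β : F_N → F_{Ns}`. -/
theorem dvd_ord_beta (N s : ℕ) [NeZero N] [NeZero s] (m : ℤ) (W : FL Qb N)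
    (h : ∀ v : Place Qb (FL Qb N), m ∣ v.ord W) (v' : Place Qb (FL Qb (N * s))) :
    m ∣ v'.ord (heckeBetaBar Qb N s W) := by
  let _ : Algebra (FL Qb N) (FL Qb (N * s)) := (heckeBetaBar Qb N s).toRingHom.toAlgebra
  have : IsScalarTower Qb (FL Qb N) (FL Qb (N * s)) :=
    IsScalarTower.of_algebraMap_eq (fun a => ((heckeBetaBar Qb N s).commutes a).symm)
  have : Algebra.IsIntegral (FL Qb N) (FL Qb (N * s)) := ⟨heckeBetaBarIntegral N s⟩
  have h1 := v'.ord_restrict (F := FL Qb N) W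
  have h2 : v'.ord (heckeBetaBar Qb N s W) = v'.ord (algebraMap (FL Qb N) (FL Qb (N * s)) W) := rfl
  rw [h2, h1]
  exact Dvd.dvd.mul_left (h _) _

theorem keyGauss_of_mul (A : ValuationSubring Qb) (N s m : ℕ) [NeZero N] [NeZero s]
    (hs : Nat.card (Cos s) < 2 * s) (hm : m ≠ 0) (h : KeyGauss A (N * s) m) : KeyGauss A N m := by
  intro P Q hP hQ hred hne hdiv
  have hiP : inclA A (qExpand A s P) = qExpand Qb s (inclA A P) := coeffMap_qExpand _ s P
  have hiQ : inclA A (qExpand A s Q) = qExpand Qb s (inclA A Q) := coeffMap_qExpand _ s Q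
  have hrP : redA A (qExpand A s P) = qExpand _ s (redA A P) := coeffMap_qExpand _ s P
  have hrQ : redA A (qExpand A s Q) = qExpand _ s (redA A Q) := coeffMap_qExpand _ s Q
  have hP' : inclA A (qExpand A s P) ∈ FL Qb (N * s) := by
    rw [hiP]; exact (heckeBetaBar Qb N s ⟨_, hP⟩).2
  have hQ' : inclA A (qExpand A s Q) ∈ FL Qb (N * s) := by
    rw [hiQ]; exact (heckeBetaBar Qb N s ⟨_, hQ⟩).2
  have hQ0 : inclA A Q ≠ 0 := by
    intro h0
    apply hne
    rw [inclA_injective A (h0.trans (map_zero _).symm), map_zero]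
  have hP0 : inclA A P ≠ 0 := by
    intro h0
    apply hne
    rw [← hred]
    rw [inclA_injective A (h0.trans (map_zero _).symm), map_zero]
  set W : FL Qb N := (⟨inclA A P, hP⟩ : FL Qb N) / ⟨inclA A Q, hQ⟩ with hW
  have hW0 : W ≠ 0 := div_ne_zero (fun h0 => hP0 (congrArg Subtype.val h0))
    (fun h0 => hQ0 (congrArg Subtype.val h0))
  have hWv : (W : LaurentSeries Qb) = inclA A P / inclA A Q := rfl
  have hβW : heckeBetaBar Qb N s W
      = (⟨inclA A (qExpand A s P), hP'⟩ : FL Qb (N * s)) / ⟨inclA A (qExpand A s Q), hQ'⟩ := by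
    rw [hW, map_div₀]
    congr 1
    · exact Subtype.ext hiP.symm
    · exact Subtype.ext hiQ.symm
  obtain ⟨y, hy, hyeq⟩ := h (qExpand A s P) (qExpand A s Q) hP' hQ' (by rw [hrP, hrQ, hred])
    (by rw [hrQ]; exact fun h0 => hne (qExpand_injective s (by rw [h0, map_zero])))
    (fun v' => by rw [← hβW]; exact dvd_ord_beta N s m W hdiv v')
  have hQ'0 : qExpand Qb s (inclA A Q) ≠ 0 :=
    fun h0 => hQ0 (qExpand_injective s (by rw [h0, map_zero]))
  have hypow : y ^ m = qExpand Qb s (W : LaurentSeries Qb) := by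
    rw [hWv, map_div₀, eq_div_iff hQ'0, ← hiQ, hyeq, hiP]
  have hWv0 : (W : LaurentSeries Qb) ≠ 0 := fun h0 => hW0 (Subtype.ext h0)
  have hy0 : y ≠ 0 := by
    rintro rfl
    rw [zero_pow hm] at hypow
    exact hWv0 (qExpand_injective s (by rw [← hypow, map_zero]))
  -- `s ∣ ord_q y`
  obtain ⟨vi, hvi⟩ := exists_placeInfty N
  obtain ⟨a, ha⟩ := hdiv vi
  rw [hvi W hW0] at ha
  have hord : (s : ℤ) ∣ y.order := by
    have h1 := congrArg HahnSeries.order hypow
    rw [HahnSeries.order_pow, order_qExpand s hWv0, ha, nsmul_eq_mul] at h1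
    refine ⟨a, ?_⟩
    have hm' : (m : ℤ) ≠ 0 := by exact_mod_cast hm
    apply mul_left_cancel₀ hm'
    rw [h1]
    ring
  have hyr := mem_range_qExpand_of_pow s m hm y hy0 ⟨_, hypow.symm⟩ hord
  obtain ⟨w, hw⟩ := exists_beta_eq N s hs ⟨y, hy⟩ hyr
  have hwy : qExpand Qb s (w : LaurentSeries Qb) = y := congrArg Subtype.val hw
  refine ⟨w, w.2, qExpand_injective s ?_⟩
  rw [map_mul, map_pow, hwy, ← hiQ, hyeq, hiP]

theorem card_Cos_four : Nat.card (Cos 4) = 6 :=
  Fermat.Agent.Lib.Gamma0Cosets.card_prime_pow Nat.prime_two 1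

theorem card_Cos_nine : Nat.card (Cos 9) = 12 :=
  Fermat.Agent.Lib.Gamma0Cosets.card_prime_pow Nat.prime_three 1

theorem keyGauss_of_four (A : ValuationSubring Qb) (N m : ℕ) [NeZero N] (hm : m ≠ 0)
    (h : KeyGauss A (N * 4) m) : KeyGauss A N m :=
  keyGauss_of_mul A N 4 m (by rw [card_Cos_four]; norm_num) hm h

theorem keyGauss_of_nine (A : ValuationSubring Qb) (N m : ℕ) [NeZero N] (hm : m ≠ 0)
    (h : KeyGauss A (N * 9) m) : KeyGauss A N m :=
  keyGauss_of_mul A N 9 m (by rw [card_Cos_nine]; norm_num) hm h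

end Fermat.Agent.S18
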