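import Fermat.Prelude.Def_ModularCurve_ReductionModL
import Fermat.Prelude.Def_EllipticCurve_FrobeniusTrace
import Fermat.Agent.GR.FormalES
import Fermat.Agent.S24.FF.RiemannHurwitz
import Fermat.Agent.S24.Mod.Degree

/-!
# S18 : wiring

The frozen statement S18 (injectivity of the reduction map on prime-to-`ℓ` torsion of `J₀(N)`)
is deduced from ONE contract, the key lemma `KeyLemmaAt A N m`:

  `W ∈ F_N`, `W` has Gauss reduction `1`, `m ∣ ord_v W` for all places `v`  ⟹  `W` is an `m`-th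
  power in `F_N`.
-/

set_option autoImplicit false
noncomputable section

namespace Fermat.Agent.S18

open ModularCurve AlgebraicCurve HahnSeries

variable (A : ValuationSubring (AlgebraicClosure ℚ)) (N : ℕ)

/-- The key lemma at level `N`, exponent `m`, in Gauss form. -/
def KeyLemmaAt (m : ℕ) : Prop :=
  ∀ (W : LaurentSeries (AlgebraicClosure ℚ)) (hW : W ∈ modularFunctionFieldBar N),
    GR.HasRed A W 1 →
    (∀ v : Place (AlgebraicClosure ℚ) (modularFunctionFieldBar N),
      (m : ℤ) ∣ v.ord (⟨W, hW⟩ : modularFunctionFieldBar N)) →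
    ∃ y ∈ modularFunctionFieldBar N, y ^ m = W

variable {k : Type*} [Field k] (π : A →+* k)

/-- series over `A` lying in `F_N` whose reduction lies in the characteristic `ℓ` field. -/
def intRing : Subring (LaurentSeries A) :=
  ((modularFunctionFieldBar N).toSubfield.toSubring.comap (coeffMap A.subtype)) ⊓
  ((modularFunctionFieldFullC k N).toSubfield.toSubring.comap (coeffMap π))

variable {A N π}

theorem mem_intRing {y : LaurentSeries A} : y ∈ intRing A N π ↔
    coeffMap A.subtype y ∈ modularFunctionFieldBar N ∧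
      coeffMap π y ∈
        modularFunctionFieldFullC k N := Iff.rfl

variable (A N π) in
/-- `x = P/Q`, `z = P~/Q~` with `P, Q ∈ intRing`. -/
def Rel (x : LaurentSeries (AlgebraicClosure ℚ))
    (z : LaurentSeries k) : Prop :=
  ∃ P Q : LaurentSeries A, P ∈ intRing A N π ∧ Q ∈ intRing A N π ∧
    coeffMap π Q ≠ 0 ∧
    coeffMap π P = z * coeffMap π Q ∧
    x * coeffMap A.subtype Q = coeffMap A.subtype P

theorem Rel.hasRed {x : LaurentSeries (AlgebraicClosure ℚ)}
    {z : LaurentSeries (IsLocalRing.ResidueField A)} (h : Rel A N (IsLocalRing.residue A) x z) :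
    GR.HasRed A x z := by
  obtain ⟨P, Q, -, -, h1, h2, h3⟩ := h
  exact ⟨P, Q, h1, h2, h3⟩

theorem incl_ne_zero {Q : LaurentSeries A} (h : coeffMap π Q ≠ 0) :
    coeffMap A.subtype Q ≠ 0 := by
  intro h0
  have : Q = 0 := GR.incl_injective (A := A) (by rw [h0, map_zero])
  exact h (by rw [this, map_zero])

theorem Rel.ne_zero {x : LaurentSeries (AlgebraicClosure ℚ)}
    {z : LaurentSeries k} (h : Rel A N π x z) (hz : z ≠ 0) : x ≠ 0 := by
  rintro rfl
  obtain ⟨P, Q, -, -, hQ, hP, hx⟩ := h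
  rw [zero_mul] at hx
  have : P = 0 := GR.incl_injective (A := A) (by rw [← hx, map_zero])
  rw [this, map_zero] at hP
  exact (mul_ne_zero hz hQ) hP.symm

theorem Rel.mem {x : LaurentSeries (AlgebraicClosure ℚ)}
    {z : LaurentSeries k} (h : Rel A N π x z) :
    x ∈ modularFunctionFieldBar N := by
  obtain ⟨P, Q, hP, hQ, h1, h2, h3⟩ := h
  have hQ0 := incl_ne_zero h1
  have : x = coeffMap A.subtype P / coeffMap A.subtype Q := by
    rw [eq_div_iff hQ0, h3]
  rw [this]
  exact div_mem hP.1 hQ.1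

theorem Rel.mem' {x : LaurentSeries (AlgebraicClosure ℚ)}
    {z : LaurentSeries k} (h : Rel A N π x z) :
    z ∈ modularFunctionFieldFullC k N := by
  obtain ⟨P, Q, hP, hQ, h1, h2, h3⟩ := h
  have : z = coeffMap π P / coeffMap π Q := by
    rw [eq_div_iff h1, h2]
  rw [this]
  exact div_mem hP.2 hQ.2

theorem Rel.of_int {y : LaurentSeries A} (hy : y ∈ intRing A N π) :
    Rel A N π (coeffMap A.subtype y) (coeffMap π y) :=
  ⟨y, 1, hy, one_mem _, by rw [map_one]; exact one_ne_zero, by rw [map_one, mul_one],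
    by rw [map_one, mul_one]⟩

theorem Rel.zero : Rel A N π 0 0 := by
  have := Rel.of_int (A := A) (N := N) (π := π) (zero_mem _)
  rwa [map_zero, map_zero] at this

theorem Rel.one : Rel A N π 1 1 := by
  have := Rel.of_int (A := A) (N := N) (π := π) (one_mem _)
  rwa [map_one, map_one] at this

theorem Rel.mul {x x' : LaurentSeries (AlgebraicClosure ℚ)}
    {z z' : LaurentSeries k}
    (h : Rel A N π x z) (h' : Rel A N π x' z') : Rel A N π (x * x') (z * z') := by
  obtain ⟨P, Q, mP, mQ, hQ, hP, hx⟩ := h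
  obtain ⟨P', Q', mP', mQ', hQ', hP', hx'⟩ := h'
  refine ⟨P * P', Q * Q', mul_mem mP mP', mul_mem mQ mQ', ?_, ?_, ?_⟩
  · rw [map_mul]; exact mul_ne_zero hQ hQ'
  · rw [map_mul, map_mul, hP, hP']; ring
  · rw [map_mul, map_mul, ← hx, ← hx']; ring

theorem Rel.add {x x' : LaurentSeries (AlgebraicClosure ℚ)}
    {z z' : LaurentSeries k}
    (h : Rel A N π x z) (h' : Rel A N π x' z') : Rel A N π (x + x') (z + z') := by
  obtain ⟨P, Q, mP, mQ, hQ, hP, hx⟩ := h
  obtain ⟨P', Q', mP', mQ', hQ', hP', hx'⟩ := h'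
  refine ⟨P * Q' + P' * Q, Q * Q', add_mem (mul_mem mP mQ') (mul_mem mP' mQ), mul_mem mQ mQ',
    ?_, ?_, ?_⟩
  · rw [map_mul]; exact mul_ne_zero hQ hQ'
  · rw [map_add, map_mul, map_mul, map_mul, hP, hP']; ring
  · rw [map_add, map_mul, map_mul, map_mul, ← hx, ← hx']; ring

theorem Rel.pow {x : LaurentSeries (AlgebraicClosure ℚ)}
    {z : LaurentSeries k} (h : Rel A N π x z) (n : ℕ) :
    Rel A N π (x ^ n) (z ^ n) := by
  induction n with
  | zero => simpa using Rel.one
  | succ n ih => rw [pow_succ, pow_succ]; exact ih.mul h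

theorem Rel.inv {x : LaurentSeries (AlgebraicClosure ℚ)}
    {z : LaurentSeries k} (h : Rel A N π x z) (hz : z ≠ 0) :
    Rel A N π x⁻¹ z⁻¹ := by
  have hx0 := h.ne_zero hz
  obtain ⟨P, Q, mP, mQ, hQ, hP, hx⟩ := h
  refine ⟨Q, P, mQ, mP, ?_, ?_, ?_⟩
  · rw [hP]; exact mul_ne_zero hz hQ
  · rw [hP, ← mul_assoc, inv_mul_cancel₀ hz, one_mul]
  · rw [← hx, ← mul_assoc, inv_mul_cancel₀ hx0, one_mul]

theorem Rel.div {x x' : LaurentSeries (AlgebraicClosure ℚ)}
    {z z' : LaurentSeries k}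
    (h : Rel A N π x z) (h' : Rel A N π x' z') (hz' : z' ≠ 0) : Rel A N π (x / x') (z / z') := by
  rw [div_eq_mul_inv, div_eq_mul_inv]
  exact h.mul (h'.inv hz')

/-- constants. -/
theorem single_mem_intRing (a : A) : HahnSeries.single (0 : ℤ) a ∈ intRing A N π := by
  rw [mem_intRing, coeffMap_single, coeffMap_single, ← algebraMap_laurentSeries_eq_single,
    ← algebraMap_laurentSeries_eq_single]
  exact ⟨IntermediateField.algebraMap_mem _ _, IntermediateField.algebraMap_mem _ _⟩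

/-- the generators. -/
theorem gen_mem_intRing {d : ℕ} [NeZero d] (hd : d ∣ N) :
    qExpand A d (jqModC A) ∈ intRing A N π := by
  rw [mem_intRing, coeffMap_qExpand, coeffMap_qExpand, coeffMap_jqModC, coeffMap_jqModC]
  refine ⟨?_, jqModCd_mem_full _ N hd⟩
  have h := S24.JdL_mem (N := N) hd
  have h2 : S24.JdL d = qExpand (AlgebraicClosure ℚ) d (jqModC (AlgebraicClosure ℚ)) := by
    rw [S24.JdL, coeffEmb, coeffMap_qExpand]
    congr 1
    exact coeffMap_jqModC (R := ℚ) (algebraMap ℚ (AlgebraicClosure ℚ))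
  rwa [h2] at h

/-- every element of the characteristic `ℓ` field lifts. -/
theorem exists_rel (hπ : Function.Surjective π) {z : LaurentSeries k}
    (hz : z ∈ modularFunctionFieldFullC k N) :
    ∃ x, Rel A N π x z := by
  rw [modularFunctionFieldFullC] at hz
  induction hz using IntermediateField.adjoin_induction with
  | mem y hy =>
    obtain ⟨d, hd0, hd, rfl⟩ := hy
    have := Rel.of_int (gen_mem_intRing (A := A) (π := π) hd)
    rw [coeffMap_qExpand π, coeffMap_jqModC] at this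
    exact ⟨_, this⟩
  | algebraMap c =>
    obtain ⟨a, rfl⟩ := hπ c
    have := Rel.of_int (single_mem_intRing (A := A) (N := N) (π := π) a)
    rw [coeffMap_single π, ← algebraMap_laurentSeries_eq_single] at this
    exact ⟨_, this⟩
  | add x y _ _ hx hy =>
    obtain ⟨a, ha⟩ := hx
    obtain ⟨b, hb⟩ := hy
    exact ⟨_, ha.add hb⟩
  | inv x _ hx =>
    obtain ⟨a, ha⟩ := hx
    by_cases h0 : x = 0
    · subst h0
      exact ⟨0, by rw [inv_zero]; exact Rel.zero⟩
    · exact ⟨_, ha.inv h0⟩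
  | mul x y _ _ hx hy =>
    obtain ⟨a, ha⟩ := hx
    obtain ⟨b, hb⟩ := hy
    exact ⟨_, ha.mul hb⟩

section Div

variable [NeZero N]
variable {r : Place (AlgebraicClosure ℚ) (modularFunctionFieldBar N) →
  Place k (modularFunctionFieldFullC k N)}

/-- reduction of divisors is compatible with `Rel`. -/
theorem Rel.mapDomain (hr : IsPlaceReductionAlong A π N r)
    {x : LaurentSeries (AlgebraicClosure ℚ)}
    {z : LaurentSeries k} (h : Rel A N π x z) (hz : z ≠ 0)
    (D : Divisor (AlgebraicClosure ℚ) (modularFunctionFieldBar N))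
    (hD : ∀ P, D P = P.ord (⟨x, h.mem⟩ : modularFunctionFieldBar N))
    (Q : Place k
      (modularFunctionFieldFullC k N)) :
    Finsupp.mapDomain r D Q =
      Q.ord (⟨z, h.mem'⟩ : modularFunctionFieldFullC k N) := by
  have hx0 := h.ne_zero hz
  have hxm := h.mem
  have hzm := h.mem'
  obtain ⟨P, S, mP, mS, hS, hP, hx⟩ := h
  have hP0 : coeffMap π P ≠ 0 := by rw [hP]; exact mul_ne_zero hz hS
  obtain ⟨D₁, hD₁⟩ := S24.FF.exists_divisor_of_ne_zero (K := AlgebraicClosure ℚ)
    (⟨coeffMap A.subtype P, mP.1⟩ : modularFunctionFieldBar N)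
  obtain ⟨D₂, hD₂⟩ := S24.FF.exists_divisor_of_ne_zero (K := AlgebraicClosure ℚ)
    (⟨coeffMap A.subtype S, mS.1⟩ : modularFunctionFieldBar N)
  have e1 : (⟨coeffMap A.subtype P, mP.1⟩ : modularFunctionFieldBar N) =
      ⟨x, hxm⟩ * ⟨coeffMap A.subtype S, mS.1⟩ := Subtype.ext hx.symm
  have e2 : (⟨coeffMap π P, mP.2⟩ :
      modularFunctionFieldFullC k N) =
      ⟨z, hzm⟩ * ⟨coeffMap π S, mS.2⟩ := Subtype.ext hP
  have hDD : D = D₁ - D₂ := by
    ext v
    rw [Finsupp.sub_apply, hD, hD₁, hD₂, e1, v.ord_mul]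
    · ring
    · exact fun h0 => hx0 (congrArg Subtype.val h0)
    · exact fun h0 => incl_ne_zero hS (congrArg Subtype.val h0)
  rw [hDD, Finsupp.mapDomain_sub, Finsupp.sub_apply, hr.2 P mP.1 mP.2 hP0 D₁ hD₁ Q,
    hr.2 S mS.1 mS.2 hS D₂ hD₂ Q, e2, Q.ord_mul]
  · ring
  · exact fun h0 => hz (congrArg Subtype.val h0)
  · exact fun h0 => hS (congrArg Subtype.val h0)

/-- principal divisors of the characteristic `ℓ` field exist and have degree `0`. -/
theorem exists_divisor_red (hπ : Function.Surjective π) (hr : IsPlaceReductionAlong A π N r)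
    (z : modularFunctionFieldFullC k N) (hz : z ≠ 0) :
    ∃ D : Divisor k
      (modularFunctionFieldFullC k N),
      (∀ Q, D Q = Q.ord z) ∧ Divisor.degree D = 0 := by
  obtain ⟨x, hx⟩ := exists_rel hπ z.2
  have hz' : (z : LaurentSeries k) ≠ 0 :=
    fun h0 => hz (Subtype.ext h0)
  obtain ⟨D, hD⟩ := S24.FF.exists_divisor_of_ne_zero (K := AlgebraicClosure ℚ)
    (⟨x, hx.mem⟩ : modularFunctionFieldBar N)
  refine ⟨Finsupp.mapDomain r D, fun Q => hx.mapDomain hr hz' D hD Q, ?_⟩
  rw [degree_mapDomain_of_deg_eq hr.1]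
  exact S24.FF.degree_eq_zero_of_principal
    (fun h0 => hx.ne_zero hz' (congrArg Subtype.val h0)) D hD

theorem degree_pos_of_nonneg {K F : Type*} [Field K] [Field F] [Algebra K F]
    (D : Divisor K F) (h : ∀ Q, 0 ≤ D Q) (Q₀ : Place K F) (h0 : 0 < D Q₀) (hd : Q₀.deg = 1) :
    0 < Divisor.degree D := by
  have h1 : Divisor.degree D = D.sum fun v n => n * (v.deg : ℤ) := by
    simp [Divisor.degree, Finsupp.liftAddHom_apply]
  rw [h1, Finsupp.sum]
  have hmem : Q₀ ∈ D.support := by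
    rw [Finsupp.mem_support_iff]; omega
  have := Finset.single_le_sum (f := fun v => D v * (v.deg : ℤ))
    (fun v _ => mul_nonneg (h v) (Int.natCast_nonneg _)) hmem
  simp only [hd] at this
  push_cast at this
  omega

theorem exists_ord_sub_pos_of_deg {K F : Type*} [Field K] [Field F] [Algebra K F]
    (Q₀ : Place K F) (hdeg : Q₀.deg = 1) (u : F) (hu : u ∈ Q₀.toValuationSubring) :
    ∃ c : K, u = algebraMap K F c ∨ 0 < Q₀.ord (u - algebraMap K F c) := by
  have hfr : Module.finrank K Q₀.ResidueField = 1 := hdeg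
  obtain ⟨c, hc⟩ : ∃ c : K,
      c • (1 : Q₀.ResidueField) = IsLocalRing.residue _ (⟨u, hu⟩ : Q₀.toValuationSubring) :=
    (finrank_eq_one_iff_of_nonzero' (1 : Q₀.ResidueField) one_ne_zero).mp hfr _
  refine ⟨c, ?_⟩
  by_cases hne : u = algebraMap K F c
  · exact Or.inl hne
  right
  have hm : ((⟨u, hu⟩ : Q₀.toValuationSubring) - algebraMap K Q₀.toValuationSubring c) ∈
      IsLocalRing.maximalIdeal Q₀.toValuationSubring := by
    rw [← IsLocalRing.residue_eq_zero_iff, map_sub, ← hc, Algebra.smul_def, mul_one, sub_eq_zero]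
    rfl
  have := S24.FF.ord_pos_of_mem_maximalIdeal Q₀ hm
    (fun h0 => hne (sub_eq_zero.mp (congrArg Subtype.val h0)))
  exact this

/-- a function on the characteristic `ℓ` curve without zeros and poles is constant. -/
theorem const_of_ord_eq_zero (hπ : Function.Surjective π) (hr : IsPlaceReductionAlong A π N r)
    (P₀ : Place (AlgebraicClosure ℚ) (modularFunctionFieldBar N))
    (u : modularFunctionFieldFullC k N)
    (hu : ∀ Q : Place k (modularFunctionFieldFullC k N), Q.ord u = 0) :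
    ∃ c : k, u = algebraMap _ (modularFunctionFieldFullC k N) c := by
  have hdeg : (r P₀).deg = 1 := by rw [hr.1, S24.FF.deg_eq_one]
  have humem : ∀ Q : Place k (modularFunctionFieldFullC k N), u ∈ Q.toValuationSubring :=
    fun Q => S24.FF.mem_toValuationSubring_of_ord_nonneg Q (by rw [hu])
  obtain ⟨c, hc⟩ := exists_ord_sub_pos_of_deg (r P₀) hdeg u (humem _)
  refine ⟨c, ?_⟩
  rcases hc with hc | hc
  · exact hc
  exfalso
  have hw0 : u - algebraMap _ (modularFunctionFieldFullC k N) c ≠ 0 := by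
    intro h0
    rw [h0, Place.ord_zero] at hc
    exact lt_irrefl _ hc
  obtain ⟨D, hD, hD0⟩ := exists_divisor_red hπ hr _ hw0
  have hpos : 0 < Divisor.degree D := by
    refine degree_pos_of_nonneg D (fun Q => ?_) (r P₀) ?_ hdeg
    · rw [hD]; exact S24.FF.ord_nonneg_of_mem Q (sub_mem (humem Q) (Q.algebraMap_mem' c))
    · rw [hD]; exact hc
  omega

omit [NeZero N] in
/-- every principal divisor is the divisor of a quotient of integral elements. -/
theorem exists_rel_of_principal (hgen : PrincipalGeneratedByIntegral A π N)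
    {E : Divisor (AlgebraicClosure ℚ) (modularFunctionFieldBar N)}
    (hE : E ∈ Divisor.principal (K := AlgebraicClosure ℚ) (F := modularFunctionFieldBar N)) :
    ∃ (x : LaurentSeries (AlgebraicClosure ℚ)) (z : LaurentSeries k) (h : Rel A N π x z),
      z ≠ 0 ∧ ∀ P, E P = P.ord (⟨x, h.mem⟩ : modularFunctionFieldBar N) := by
  have hE' := hgen hE
  clear hE
  induction hE' using AddSubgroup.closure_induction with
  | mem E hE =>
    obtain ⟨y, hy, hyk, hne, hDy⟩ := hE
    exact ⟨_, _, Rel.of_int ⟨hy, hyk⟩, hne, hDy⟩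
  | zero => exact ⟨1, 1, Rel.one, one_ne_zero, fun P => (P.ord_one).symm⟩
  | add E E' _ _ hE hE' =>
    obtain ⟨x, z, h, hz, hx⟩ := hE
    obtain ⟨x', z', h', hz', hx'⟩ := hE'
    refine ⟨_, _, h.mul h', mul_ne_zero hz hz', fun P => ?_⟩
    rw [Finsupp.add_apply, hx, hx', ← P.ord_mul]
    · rfl
    · exact fun h0 => h.ne_zero hz (congrArg Subtype.val h0)
    · exact fun h0 => h'.ne_zero hz' (congrArg Subtype.val h0)
  | neg E _ hE =>
    obtain ⟨x, z, h, hz, hx⟩ := hE
    refine ⟨_, _, h.inv hz, inv_ne_zero hz, fun P => ?_⟩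
    rw [Finsupp.neg_apply, hx, ← P.ord_inv]
    rfl

/-- the core of S18, on divisors. -/
theorem principal_of_key (hπ : Function.Surjective π) (hr : IsPlaceReductionAlong A π N r)
    (hgen : PrincipalGeneratedByIntegral A π N) (m : ℕ) (hm0 : m ≠ 0)
    (hroot : ∀ c : k, ∃ b : k, b ^ m = c)
    (hkey : ∀ (W : LaurentSeries (AlgebraicClosure ℚ)) (hW : W ∈ modularFunctionFieldBar N),
      Rel A N π W 1 →
      (∀ v : Place (AlgebraicClosure ℚ) (modularFunctionFieldBar N),
        (m : ℤ) ∣ v.ord (⟨W, hW⟩ : modularFunctionFieldBar N)) →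
      ∃ y ∈ modularFunctionFieldBar N, y ^ m = W)
    (D : Divisor (AlgebraicClosure ℚ) (modularFunctionFieldBar N))
    (hmD : m • D ∈ Divisor.principal (K := AlgebraicClosure ℚ) (F := modularFunctionFieldBar N))
    (hred : Finsupp.mapDomain r D ∈
      Divisor.principal (K := k) (F := modularFunctionFieldFullC k N)) :
    D ∈ Divisor.principal (K := AlgebraicClosure ℚ) (F := modularFunctionFieldBar N) := by
  classical
  by_cases hemp : IsEmpty (Place (AlgebraicClosure ℚ) (modularFunctionFieldBar N))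
  · have : D = 0 := by
      ext P
      exact (hemp.false P).elim
    rw [this]
    exact zero_mem _
  rw [not_isEmpty_iff] at hemp
  obtain ⟨P₀⟩ := hemp
  obtain ⟨x, z₁, hxz, hz₁, hx⟩ := exists_rel_of_principal hgen hmD
  obtain ⟨g, hg0, hg⟩ := hred
  -- `u = z₁ / g ^ m` has trivial divisor
  have hord : ∀ Q : Place k (modularFunctionFieldFullC k N),
      Q.ord (⟨z₁, hxz.mem'⟩ : modularFunctionFieldFullC k N) = m * Q.ord g := by
    intro Q
    rw [← hxz.mapDomain hr hz₁ (m • D) hx Q, ← hg Q, ← Finsupp.mapDomain.addMonoidHom_apply,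
      map_nsmul, Finsupp.mapDomain.addMonoidHom_apply, Finsupp.smul_apply, nsmul_eq_mul]
  have hz₁' : (⟨z₁, hxz.mem'⟩ : modularFunctionFieldFullC k N) ≠ 0 :=
    fun h0 => hz₁ (congrArg Subtype.val h0)
  obtain ⟨c, hc⟩ := const_of_ord_eq_zero hπ hr P₀
    ((⟨z₁, hxz.mem'⟩ : modularFunctionFieldFullC k N) * (g ^ m)⁻¹) (fun Q => by
      rw [Q.ord_mul hz₁' (inv_ne_zero (pow_ne_zero m hg0)), Q.ord_inv, S24.FF.ord_pow, hord]
      ring)
  obtain ⟨b, hb⟩ := hroot c
  -- `z₁ = (b g) ^ m`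
  have hz₁eq : z₁ = ((algebraMap k (modularFunctionFieldFullC k N) b * g :
      modularFunctionFieldFullC k N) : LaurentSeries k) ^ m := by
    have h1 : (⟨z₁, hxz.mem'⟩ : modularFunctionFieldFullC k N) =
        (algebraMap k (modularFunctionFieldFullC k N) b * g) ^ m := by
      rw [mul_pow, ← map_pow, hb, ← hc, mul_assoc, inv_mul_cancel₀ (pow_ne_zero m hg0), mul_one]
    have h2 := congrArg Subtype.val h1
    simpa using h2
  set g' : modularFunctionFieldFullC k N := algebraMap k (modularFunctionFieldFullC k N) b * g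
    with hg'
  have hg'0 : (g' : LaurentSeries k) ≠ 0 := by
    intro h0
    rw [h0, zero_pow hm0] at hz₁eq
    exact hz₁ hz₁eq
  obtain ⟨G, hG⟩ := exists_rel hπ g'.2
  have hG0 : G ≠ 0 := hG.ne_zero hg'0
  have hW : Rel A N π (x / G ^ m) 1 := by
    have := hxz.div (hG.pow m) (pow_ne_zero m hg'0)
    rwa [← hz₁eq, div_self hz₁] at this
  have hx0 : x ≠ 0 := hxz.ne_zero hz₁
  have hxG : (⟨x / G ^ m, hW.mem⟩ : modularFunctionFieldBar N) =
      ⟨x, hxz.mem⟩ * ((⟨G, hG.mem⟩ : modularFunctionFieldBar N) ^ m)⁻¹ := by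
    apply Subtype.ext
    simp [div_eq_mul_inv]
  have hx0' : (⟨x, hxz.mem⟩ : modularFunctionFieldBar N) ≠ 0 :=
    fun h0 => hx0 (congrArg Subtype.val h0)
  have hG0' : (⟨G, hG.mem⟩ : modularFunctionFieldBar N) ≠ 0 :=
    fun h0 => hG0 (congrArg Subtype.val h0)
  have hordW : ∀ v : Place (AlgebraicClosure ℚ) (modularFunctionFieldBar N),
      v.ord (⟨x / G ^ m, hW.mem⟩ : modularFunctionFieldBar N) =
        m * (D v - v.ord (⟨G, hG.mem⟩ : modularFunctionFieldBar N)) := by
    intro v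
    rw [hxG, v.ord_mul hx0' (inv_ne_zero (pow_ne_zero m hG0')), v.ord_inv, S24.FF.ord_pow, ← hx,
      Finsupp.smul_apply, nsmul_eq_mul]
    ring
  obtain ⟨y, hy, hyW⟩ := hkey _ hW.mem hW (fun v => ⟨_, hordW v⟩)
  have hy0 : y ≠ 0 := by
    rintro rfl
    rw [zero_pow hm0] at hyW
    exact (div_ne_zero hx0 (pow_ne_zero m hG0)) hyW.symm
  have hy0' : (⟨y, hy⟩ : modularFunctionFieldBar N) ≠ 0 :=
    fun h0 => hy0 (congrArg Subtype.val h0)
  refine ⟨⟨y, hy⟩ * ⟨G, hG.mem⟩, mul_ne_zero hy0' hG0', fun v => ?_⟩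
  have h1 : (⟨x / G ^ m, hW.mem⟩ : modularFunctionFieldBar N) =
      (⟨y, hy⟩ : modularFunctionFieldBar N) ^ m := by
    apply Subtype.ext
    simp [hyW]
  have h2 := hordW v
  rw [h1, S24.FF.ord_pow] at h2
  have h3 : v.ord (⟨y, hy⟩ : modularFunctionFieldBar N) =
      D v - v.ord (⟨G, hG.mem⟩ : modularFunctionFieldBar N) :=
    mul_left_cancel₀ (by exact_mod_cast hm0 : (m : ℤ) ≠ 0) h2
  rw [v.ord_mul hy0' hG0', h3]
  ring

end Div

/-- `m`-th roots exist in the residue field of a valuation subring of `ℚ̄`. -/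
theorem exists_pow_eq_residue (m : ℕ) (hm0 : m ≠ 0) (c : IsLocalRing.ResidueField A) :
    ∃ b : IsLocalRing.ResidueField A, b ^ m = c := by
  obtain ⟨a, rfl⟩ := IsLocalRing.residue_surjective c
  obtain ⟨β, hβ⟩ := IsAlgClosed.exists_pow_nat_eq (a : AlgebraicClosure ℚ)
    (Nat.pos_of_ne_zero hm0)
  have hβA : β ∈ A := by
    rcases A.mem_or_inv_mem β with h | h
    · exact h
    · by_cases h0 : β = 0
      · rw [h0]; exact zero_mem _
      have : β = β ^ m * (β⁻¹) ^ (m - 1) := by
        obtain ⟨n, rfl⟩ : ∃ n, m = n + 1 := ⟨m - 1, by omega⟩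
        rw [Nat.add_sub_cancel, pow_succ, inv_pow]
        field_simp
      rw [this, hβ]
      exact mul_mem a.2 (pow_mem h _)
  refine ⟨IsLocalRing.residue A ⟨β, hβA⟩, ?_⟩
  rw [← map_pow]
  congr 1
  exact Subtype.ext hβ

set_option synthInstance.maxHeartbeats 400000 in
/-- **S18 from the key lemma.** -/
theorem s18_of_keyLemma (N : ℕ) [NeZero N] {ℓ : ℕ}
    [Fact ℓ.Prime] (A : ValuationSubring (AlgebraicClosure ℚ))
    (h : ModularCurve.ReductionInputsModL A N) (m : ℕ) (hm : ¬ ℓ ∣ m)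
    (hkey : KeyLemmaAt A N m) (z : ModularCurve.JZero N)
    (hmz : m • z = 0) (hz : ModularCurve.reductionModL A N z = 0) :
    z = 0 := by
  have hm0 : m ≠ 0 := by
    rintro rfl
    exact hm (dvd_zero _)
  obtain ⟨D, rfl⟩ := Pic0.mk_surjective z
  rw [reductionModL_mk h D] at hz
  have h1 : (D : Divisor (AlgebraicClosure ℚ) (modularFunctionFieldBar N)) ∈
      Divisor.principal (K := AlgebraicClosure ℚ) (F := modularFunctionFieldBar N) := by
    refine principal_of_key IsLocalRing.residue_surjective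
      (isPlaceReductionModL_placeReductionModL h) h.choose_spec.2 m hm0
      (exists_pow_eq_residue m hm0) (fun W hW hrel hv => hkey W hW hrel.hasRed hv) D ?_ ?_
    · have h2 : Pic0.mk (m • D) = 0 := hmz
      have h3 := (QuotientAddGroup.eq_zero_iff _).mp h2
      exact h3
    · have h3 := (QuotientAddGroup.eq_zero_iff _).mp hz
      exact h3
  exact (QuotientAddGroup.eq_zero_iff _).mpr h1

end Fermat.Agent.S18
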