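import Fermat.Agent.S18.Chain
import Fermat.Agent.GAL.ModuleDefs

/-!
# S18 : the chain from the official contract of block KL (`GAL.KeyLemmaStatement`)
-/

set_option autoImplicit false

namespace Fermat.Agent.S18

open Fermat.Agent.GAL

theorem klExport_of_keyLemmaStatement (hK : KeyLemmaStatement) : KLExport := by
  intro ℓ _ A hA M n hM0 hM hℓM hℓn W P Q _ _ hQ hPQ hW hord
  have hred : GR.HasRed A (W : LaurentSeries Qb) 1 := ⟨P, Q, hQ, by rw [one_mul]; exact hPQ, hW⟩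
  have hW0 : (W : LaurentSeries Qb) ≠ 0 := hred.ne_zero one_ne_zero
  obtain ⟨y, hy, hyW⟩ := hK M n ℓ hM0 hM Fact.out hℓM hℓn A hA (W : LaurentSeries Qb) W.2 hW0 hred
    (fun v => hord v)
  exact ⟨⟨y, hy⟩, Subtype.ext hyW⟩

/-- frozen S18 from the official contract of block KL. -/
theorem s18_of_keyLemmaStatement (hK : KeyLemmaStatement) (N : ℕ) [NeZero N] {ℓ : ℕ}
    [Fact ℓ.Prime] (hℓN : ¬ ℓ ∣ N) (A : ValuationSubring (AlgebraicClosure ℚ)) (hA : A.LiesOverPrime ℓ)
    (h : ModularCurve.ReductionInputsModL A N) (m : ℕ) (hm : ¬ ℓ ∣ m) (z : ModularCurve.JZero N)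
    (hmz : m • z = 0) (hz : ModularCurve.reductionModL A N z = 0) :
    z = 0 :=
  s18_of_KLExport (klExport_of_keyLemmaStatement hK) N hℓN A hA h m hm z hmz hz

end Fermat.Agent.S18
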