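import Fermat.Agent.S18.Defs
import Fermat.Agent.S18.LevelChange

/-!
# S18 : change of level for `S18.KeyLemma`

`keyLemma_of_mul` : `KeyLemma A (N * s) n → KeyLemma A N n` when `[SL₂(ℤ) : Γ₀(s)] < 2 s`.
`keyLemma_of_adm`  : the key lemma at all admissible levels prime to `ℓ` implies the key lemma at
all levels prime to `ℓ`.
-/

set_option autoImplicit false

open ModularCurve AlgebraicCurve

noncomputable section

namespace Fermat.Agent.S18

open Fermat.Agent.S24 Fermat.Agent.GAL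

theorem keyGauss_of_keyLemma {A : ValuationSubring Qb} {M n : ℕ} (h : KeyLemma A M n) :
    KeyGauss A M n := by
  intro P Q hP hQ hred hne hdiv
  have hQ0 : inclA A Q ≠ 0 := by
    intro h0
    apply hne
    rw [inclA_injective A (h0.trans (map_zero _).symm), map_zero]
  set W : FL Qb M := (⟨inclA A P, hP⟩ : FL Qb M) / ⟨inclA A Q, hQ⟩ with hW
  have hWv : (W : LaurentSeries Qb) = inclA A P / inclA A Q := by
    rw [hW, IntermediateField.coe_div]
  obtain ⟨y, hy⟩ := h W P Q hP hQ hne hred (by rw [hWv, div_mul_cancel₀ _ hQ0]) hdiv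
  refine ⟨y, y.2, ?_⟩
  have h1 : (y : LaurentSeries Qb) ^ n = inclA A P / inclA A Q := by
    rw [← hWv, ← hy, IntermediateField.coe_pow]
  rw [h1, div_mul_cancel₀ _ hQ0]

theorem keyLemma_of_keyGauss {A : ValuationSubring Qb} {M n : ℕ} (h : KeyGauss A M n) :
    KeyLemma A M n := by
  intro W P Q hP hQ hne hred hW hdiv
  have hQ0 : inclA A Q ≠ 0 := by
    intro h0
    apply hne
    rw [inclA_injective A (h0.trans (map_zero _).symm), map_zero]
  have hWeq : W = (⟨inclA A P, hP⟩ : FL Qb M) / ⟨inclA A Q, hQ⟩ := by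
    apply Subtype.ext
    rw [IntermediateField.coe_div, eq_div_iff hQ0, hW]
  obtain ⟨y, hy, hyeq⟩ := h P Q hP hQ hred hne (fun v => by rw [← hWeq]; exact hdiv v)
  refine ⟨⟨y, hy⟩, Subtype.ext ?_⟩
  rw [IntermediateField.coe_pow]
  exact mul_right_cancel₀ hQ0 (hyeq.trans hW.symm)

/-- **Level change.** -/
theorem keyLemma_of_mul (A : ValuationSubring Qb) (N s n : ℕ) [NeZero N] [NeZero s]
    (hs : Nat.card (Cos s) < 2 * s) (hn : n ≠ 0) (h : KeyLemma A (N * s) n) : KeyLemma A N n :=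
  keyLemma_of_keyGauss (keyGauss_of_mul A N s n hs hn (keyGauss_of_keyLemma h))

/-- The key lemma at the admissible levels `4N` / `9N` gives the key lemma at level `N`. -/
theorem keyLemma_of_adm (A : ValuationSubring Qb) (ℓ n : ℕ) (hℓ : ℓ.Prime) (hn : n ≠ 0)
    (h : ∀ M : ℕ, M ≠ 0 → AdmLevel M → ¬ ℓ ∣ M → KeyLemma A M n)
    (N : ℕ) [NeZero N] (hℓN : ¬ ℓ ∣ N) : KeyLemma A N n := by
  by_cases h2 : ℓ = 2
  · refine keyLemma_of_mul A N 9 n (by rw [card_Cos_nine]; norm_num) hn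
      (h (N * 9) (Nat.mul_ne_zero (NeZero.ne N) (by norm_num)) (Or.inr (Dvd.intro_left N rfl)) ?_)
    intro hd
    rcases (Nat.Prime.dvd_mul hℓ).mp hd with h3 | h3
    · exact hℓN h3
    · subst h2
      norm_num at h3
  · refine keyLemma_of_mul A N 4 n (by rw [card_Cos_four]; norm_num) hn
      (h (N * 4) (Nat.mul_ne_zero (NeZero.ne N) (by norm_num)) (Or.inl (Dvd.intro_left N rfl)) ?_)
    intro hd
    rcases (Nat.Prime.dvd_mul hℓ).mp hd with h3 | h3
    · exact hℓN h3
    · have h4 : ℓ ∣ 2 ^ 2 := by simpa using h3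
      exact h2 ((Nat.prime_dvd_prime_iff_eq hℓ Nat.prime_two).mp (hℓ.dvd_of_dvd_pow h4))

end Fermat.Agent.S18
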