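import Fermat.Agent.S18.Defs
import Fermat.Agent.S18.Wiring

/-!
# S18 : wiring against the cell contract `S18.KeyLemma A N m` (weakest Gauss form)
-/

set_option autoImplicit false
noncomputable section

namespace Fermat.Agent.S18

open ModularCurve AlgebraicCurve HahnSeries

set_option synthInstance.maxHeartbeats 400000 in
/-- **S18 from the key lemma at level `N`** (contract of `S18/Defs.lean`). -/
theorem s18_of_KeyLemma (N : ℕ) [NeZero N] {ℓ : ℕ}
    [Fact ℓ.Prime] (A : ValuationSubring (AlgebraicClosure ℚ))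
    (h : ModularCurve.ReductionInputsModL A N) (m : ℕ) (hm : ¬ ℓ ∣ m)
    (hkey : KeyLemma A N m) (z : ModularCurve.JZero N)
    (hmz : m • z = 0) (hz : ModularCurve.reductionModL A N z = 0) :
    z = 0 := by
  have hm0 : m ≠ 0 := by
    rintro rfl
    exact hm (dvd_zero _)
  obtain ⟨D, rfl⟩ := Pic0.mk_surjective z
  rw [reductionModL_mk h D] at hz
  have h1 : (D : Divisor (AlgebraicClosure ℚ) (modularFunctionFieldBar N)) ∈
      Divisor.principal (K := AlgebraicClosure ℚ) (F := modularFunctionFieldBar N) := by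
    refine principal_of_key IsLocalRing.residue_surjective
      (isPlaceReductionModL_placeReductionModL h) h.choose_spec.2 m hm0
      (exists_pow_eq_residue m hm0) (fun W hW hrel hv => ?_) D ?_ ?_
    · obtain ⟨P, Q, mP, mQ, hQ, hP, hx⟩ := hrel
      obtain ⟨y, hy⟩ := hkey ⟨W, hW⟩ P Q mP.1 mQ.1 hQ (by rw [GAL.redA, hP, one_mul]) hx hv
      exact ⟨y, y.2, by simpa using congrArg Subtype.val hy⟩
    · have h2 : Pic0.mk (m • D) = 0 := hmz
      have h3 := (QuotientAddGroup.eq_zero_iff _).mp h2
      exact h3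
    · have h3 := (QuotientAddGroup.eq_zero_iff _).mp hz
      exact h3
  exact (QuotientAddGroup.eq_zero_iff _).mpr h1

end Fermat.Agent.S18
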