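import Mathlib
import Fermat.Prelude.Def_ModularCurve_ReductionModL
import Fermat.Prelude.Def_EllipticCurve_FrobeniusTrace
import Fermat.Agent.S18.WiringKL
import Fermat.Agent.S18.LevelMain

set_option autoImplicit false

namespace Fermat.Agent.S18

open Fermat.Agent.GAL

/-- the export expected from KL. -/
def KLExport : Prop :=
  ∀ (ℓ : ℕ) [Fact ℓ.Prime] (A : ValuationSubring Qb), A.LiesOverPrime ℓ → ∀ M n : ℕ, M ≠ 0 →
    AdmLevel M → ¬ ℓ ∣ M → ¬ ℓ ∣ n → KeyLemma A M n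

theorem s18_of_KLExport (hKL : KLExport) (N : ℕ) [NeZero N] {ℓ : ℕ}
    [Fact ℓ.Prime] (hℓN : ¬ ℓ ∣ N) (A : ValuationSubring (AlgebraicClosure ℚ)) (hA : A.LiesOverPrime ℓ)
    (h : ModularCurve.ReductionInputsModL A N) (m : ℕ) (hm : ¬ ℓ ∣ m) (z : ModularCurve.JZero N)
    (hmz : m • z = 0) (hz : ModularCurve.reductionModL A N z = 0) :
    z = 0 :=
  s18_of_KeyLemma N A h m hm
    (keyLemma_of_adm A ℓ m Fact.out (fun h0 => hm (h0 ▸ dvd_zero ℓ))
      (fun M hM0 hM hℓM => hKL ℓ A hA M m hM0 hM hℓM hm) N hℓN) z hmz hz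

end Fermat.Agent.S18
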