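import Fermat.Agent.GAL.Defs
import Fermat.Agent.GR.FormalES

/-!
# S18 : shared definitions

`KeyLemma A M n` is the key lemma of project GAL at level `M` and exponent `n`, in "Gauss form":
a function `W = P / Q` on `X₀(M)` (`P`, `Q` functions with `A`-integral `q`-expansions having the
same nonzero reduction) all of whose orders are divisible by `n` is an `n`-th power.
-/

set_option autoImplicit false

open ModularCurve AlgebraicCurve

noncomputable section

namespace Fermat.Agent.S18

open Fermat.Agent.GAL

/-- The key lemma at level `M`, exponent `n`, in Gauss form. -/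
def KeyLemma (A : ValuationSubring Qb) (M n : ℕ) : Prop :=
  ∀ (W : FL Qb M) (P Q : LaurentSeries A), inclA A P ∈ FL Qb M → inclA A Q ∈ FL Qb M →
    redA A Q ≠ 0 → redA A P = redA A Q → (W : LaurentSeries Qb) * inclA A Q = inclA A P →
    (∀ v : Place Qb (FL Qb M), (n : ℤ) ∣ v.ord W) → ∃ y : FL Qb M, y ^ n = W

end Fermat.Agent.S18
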