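import Fermat.Agent.S24.Mod.Degree

/-!
# S18 : Fricke symmetry of the algebraic relations between `j(q)` and `j(q^s)`

`exists_swapped_relation` : `j(q)` is a root of a monic polynomial of degree `[SL₂(ℤ) : Γ₀(s)]`
with coefficients in `ℚ̄[j(q^s)]`.
-/

set_option autoImplicit false

open UpperHalfPlane ModularForm Function ModularCurve IntermediateField
open scoped Manifold MatrixGroups

noncomputable section

namespace Fermat.Agent.S18

open Fermat.Agent.S24

open Polynomial in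
/-- the polynomial form of `S24.exists_monic_of_Psi_mem`. -/
theorem exists_relation_of_Psi_mem {N : ℕ} [NeZero N] (x : FN N)
    (hx : ∃ f : MerMod N, Psi N x = algebraMap (MerMod N) (LL N) f) :
    ∃ (D : ℕ) (c' : ℕ × ℕ → Kb), c' (Nat.card (Cos N), 0) = 1 ∧
      (∀ a, a ≠ 0 → c' (Nat.card (Cos N), a) = 0) ∧
      ∑ i ∈ Finset.range (Nat.card (Cos N) + 1) ×ˢ Finset.range (D + 1),
        algebraMap Kb (FN N) (c' i) * (JJ N ^ i.2 * x ^ i.1) = 0 := by
  obtain ⟨f, hf⟩ := hx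
  set n := Nat.card (Cos N) with hn
  choose p0 hp0 using exists_coeff_charM hf
  let p : ℕ → ℂ[X] := fun k => if k = n then 1 else p0 k
  have hpn : p n = 1 := by simp [p]
  have hp : ∀ k, (charM f).coeff k = aeval (jM N) (p k) := by
    intro k
    by_cases hk : k = n
    · subst hk
      rw [hpn, map_one, hn, ← charM_natDegree f]
      exact (charM_monic f).coeff_natDegree
    · simp only [p, if_neg hk]
      exact hp0 k
  let D := (Finset.range (n + 1)).sup (fun k => (p k).natDegree)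
  have hD : ∀ k ∈ Finset.range (n + 1), (p k).natDegree ≤ D := fun k hk =>
    Finset.le_sup (f := fun k => (p k).natDegree) hk
  have h1 : ∑ k ∈ Finset.range (n + 1), (charM f).coeff k * f ^ k = 0 := by
    have := charM_eval hf
    rwa [eval_eq_sum_range, charM_natDegree] at this
  have h2 : ∑ i ∈ Finset.range (n + 1) ×ˢ Finset.range (D + 1),
      HahnSeries.C ((p i.1).coeff i.2) * kap N (JJ N ^ i.2 * x ^ i.1) = 0 := by
    rw [Finset.sum_product]
    have := congrArg (LamM N) h1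
    rw [map_sum, map_zero] at this
    rw [← this]
    refine Finset.sum_congr rfl fun k hk => ?_
    rw [map_mul, map_pow, hp k, LamM_aeval_jM N (p k) D (hD k hk), LamM_eq_kap hf, Finset.sum_mul]
    refine Finset.sum_congr rfl fun a _ => ?_
    simp only [map_mul, map_pow]
    ring
  obtain ⟨c', hc'1, hc'0, hc'⟩ := exists_Kb_relation _ (fun i : ℕ × ℕ => JJ N ^ i.2 * x ^ i.1)
    (fun i : ℕ × ℕ => (p i.1).coeff i.2) (n, 0) (by simp) (by simp [hpn]) h2
  exact ⟨D, c', hc'1, fun a ha => hc'0 (n, a) (by simp [hpn, coeff_one, ha]), hc'⟩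

/-- an algebraic relation between two "holomorphic" elements of `FN N` is a pointwise relation. -/
theorem relation_iff_pointwise {N : ℕ} [NeZero N] (S : Finset (ℕ × ℕ)) (c : ℕ × ℕ → Kb)
    {x y : FN N} {f g : MerMod N} (hx : Psi N x = algebraMap (MerMod N) (LL N) f)
    (hy : Psi N y = algebraMap (MerMod N) (LL N) g) :
    (∑ i ∈ S, algebraMap Kb (FN N) (c i) * (x ^ i.2 * y ^ i.1) = 0) ↔
      ∀ τ : ℍ, ∑ i ∈ S, iota (c i) * (f.1 τ ^ i.2 * g.1 τ ^ i.1) = 0 := by
  have h1 : Psi N (∑ i ∈ S, algebraMap Kb (FN N) (c i) * (x ^ i.2 * y ^ i.1))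
      = algebraMap (MerMod N) (LL N)
        (∑ i ∈ S, algebraMap Kb (MerMod N) (c i) * (f ^ i.2 * g ^ i.1)) := by
    rw [map_sum, map_sum]
    refine Finset.sum_congr rfl fun i _ => ?_
    rw [map_mul, map_mul, map_pow, map_pow, hx, hy, AlgHom.commutes, map_mul, map_mul, map_pow,
      map_pow, ← IsScalarTower.algebraMap_apply Kb (MerMod N) (LL N)]
  rw [← map_eq_zero_iff (Psi N) (Psi N).toRingHom.injective, h1,
    map_eq_zero_iff _ (IsFractionRing.injective (MerMod N) (LL N))]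
  have h2 : ∀ τ : ℍ, (∑ i ∈ S, algebraMap Kb (MerMod N) (c i) * (f ^ i.2 * g ^ i.1) : MerMod N).1 τ
      = ∑ i ∈ S, iota (c i) * (f.1 τ ^ i.2 * g.1 τ ^ i.1) := by
    intro τ
    have := map_sum (evalM N τ) (fun i => algebraMap Kb (MerMod N) (c i) * (f ^ i.2 * g ^ i.1)) S
    refine this.trans (Finset.sum_congr rfl fun i _ => ?_)
    rw [map_mul, map_mul, map_pow, map_pow]
    rfl
  constructor
  · intro h τ
    rw [← h2, h]
    rfl
  · intro h
    apply Subtype.ext
    funext τ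
    rw [h2, h]
    rfl

/-- `τ ↦ -1/(sτ)`. -/
def frickeH (s : ℕ) [NeZero s] (τ : ℍ) : ℍ := ModularGroup.S • scaleH s τ

theorem jFun_frickeH (s : ℕ) [NeZero s] (τ : ℍ) : jFun (frickeH s τ) = jD s τ :=
  jFun_smul _ _

theorem jD_frickeH (s : ℕ) [NeZero s] (τ : ℍ) : jD s (frickeH s τ) = jFun τ := by
  have h : scaleH s (frickeH s τ) = ModularGroup.S • τ := by
    apply UpperHalfPlane.ext
    have hs : (s : ℂ) ≠ 0 := by exact_mod_cast NeZero.ne s
    have hτ : (τ : ℂ) ≠ 0 := UpperHalfPlane.ne_zero τ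
    rw [coe_scaleH, frickeH, UpperHalfPlane.modular_S_smul, UpperHalfPlane.modular_S_smul]
    simp only [coe_scaleH]
    field_simp
  show jFun (scaleH s (frickeH s τ)) = jFun τ
  rw [h, jFun_smul]

/-- **Fricke symmetry** of the relations between `j(q)` and `j(q^s)`. -/
theorem fricke_swap (s : ℕ) [NeZero s] (S : Finset (ℕ × ℕ)) (c : ℕ × ℕ → Kb)
    (h : ∑ i ∈ S, algebraMap Kb (FN s) (c i) * (JJ s ^ i.2 * Jd s s dvd_rfl ^ i.1) = 0) :
    ∑ i ∈ S, algebraMap Kb (FN s) (c i) * (Jd s s dvd_rfl ^ i.2 * JJ s ^ i.1) = 0 := by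
  rw [relation_iff_pointwise S c (Psi_JJ s) (Psi_Jd s s dvd_rfl)] at h
  rw [relation_iff_pointwise S c (Psi_Jd s s dvd_rfl) (Psi_JJ s)]
  intro τ
  have := h (frickeH s τ)
  simp only [jM] at this ⊢
  rw [jFun_frickeH] at this
  rw [jD_frickeH] at this
  exact this

/-- `j(q)` is integral of degree `[SL₂(ℤ) : Γ₀(s)]` over `ℚ̄[j(q^s)]`. -/
theorem exists_swapped_relation (s : ℕ) [NeZero s] :
    ∃ (D : ℕ) (c' : ℕ × ℕ → Kb), c' (Nat.card (Cos s), 0) = 1 ∧
      (∀ a, a ≠ 0 → c' (Nat.card (Cos s), a) = 0) ∧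
      ∑ i ∈ Finset.range (Nat.card (Cos s) + 1) ×ˢ Finset.range (D + 1),
        algebraMap Kb (LaurentSeries Kb) (c' i) * (JdL s ^ i.2 * JdL 1 ^ i.1) = 0 := by
  obtain ⟨D, c', h1, h0, hrel⟩ := exists_relation_of_Psi_mem (Jd s s dvd_rfl) ⟨_, Psi_Jd s s dvd_rfl⟩
  refine ⟨D, c', h1, h0, ?_⟩
  have := congrArg (Subtype.val) (fricke_swap s _ c' hrel)
  rw [AddSubmonoidClass.coe_finsetSum] at this
  exact this

end Fermat.Agent.S18
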